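/-
S55 (Poitou-Tate), block G, leaf FA0 (cyclotomic layer): definitions.
`Cyc p n` = elements of `GQ` acting trivially on `μ_{p^n}`; `ActsBy p g N c` = `g` acts on
`μ_{p^N}` by `z ↦ z ^ c`.
-/
import Fermat.Agent.PT.Global.Interface2

set_option autoImplicit false

open scoped Pointwise

noncomputable section

namespace Fermat.Agent.PT

/-- the elements of `GQ` acting trivially on `μ_{p^n}`. -/
def Cyc (p n : ℕ) : Subgroup GQ where
  carrier := {g | ∀ z : Qbar, z ^ (p ^ n) = 1 → g z = z}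
  one_mem' := fun _ _ => rfl
  mul_mem' := by
    intro g h hg hh z hz
    rw [AlgEquiv.mul_apply, hh z hz, hg z hz]
  inv_mem' := by
    intro g hg z hz
    have h := hg z hz
    calc g⁻¹ z = g⁻¹ (g z) := by rw [h]
      _ = z := by rw [← AlgEquiv.mul_apply, inv_mul_cancel, AlgEquiv.one_apply]

theorem mem_Cyc {p n : ℕ} {g : GQ} : g ∈ Cyc p n ↔ ∀ z : Qbar, z ^ (p ^ n) = 1 → g z = z := Iff.rfl

/-- `g` acts on `μ_{p^N}` by `z ↦ z ^ c`. -/
def ActsBy (p : ℕ) (g : GQ) (N c : ℕ) : Prop := ∀ z : Qbar, z ^ (p ^ N) = 1 → g z = z ^ c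

instance Cyc_normal (p n : ℕ) : (Cyc p n).Normal where
  conj_mem := by
    intro g hg h z hz
    have h1 : (h⁻¹ z) ^ (p ^ n) = 1 := by rw [← map_pow, hz, map_one]
    rw [AlgEquiv.mul_apply, AlgEquiv.mul_apply, hg _ h1, ← AlgEquiv.mul_apply, mul_inv_cancel,
      AlgEquiv.one_apply]

theorem Cyc_succ_le (p n : ℕ) : Cyc p (n + 1) ≤ Cyc p n := by
  intro g hg z hz
  exact hg z (by rw [pow_succ, pow_mul, hz, one_pow])

theorem Cyc_antitone (p : ℕ) : Antitone (Cyc p) := antitone_nat_of_succ_le (Cyc_succ_le p)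

end Fermat.Agent.PT

end
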