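/-
S55 (Poitou-Tate), block G, leaf FA0 (cyclotomic layer): exponents of the action on `μ_{p^N}` and
the lifting-the-exponent step `d ∈ C_a \ C_{a+1} ⇒ d^p ∈ C_{a+1} \ C_{a+2}`.
-/
import Fermat.Agent.PT.Global.Cyc.Defs

set_option autoImplicit false

open scoped Pointwise

noncomputable section

namespace Fermat.Agent.PT

theorem Alg_exists_primitiveRoot (n : ℕ) (hn : n ≠ 0) : ∃ ζ : Qbar, IsPrimitiveRoot ζ n := by
  have : NeZero n := ⟨hn⟩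
  exact HasEnoughRootsOfUnity.exists_primitiveRoot Qbar n

theorem Alg_pow_eq_pow_iff {z : Qbar} (hz0 : z ≠ 0) (a b : ℕ) :
    z ^ a = z ^ b ↔ a ≡ b [MOD orderOf z] := by
  have h1 : (Units.mk0 z hz0) ^ a = (Units.mk0 z hz0) ^ b ↔ z ^ a = z ^ b := by
    rw [Units.ext_iff]; simp
  have h2 : orderOf (Units.mk0 z hz0) = orderOf z := by
    rw [← orderOf_units]; rfl
  rw [← h1, pow_eq_pow_iff_modEq, h2]

theorem Alg_modEq_iff (p c n : ℕ) : c ≡ 1 [MOD p ^ n] ↔ ((p : ℤ)) ^ n ∣ (c : ℤ) - 1 := by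
  rw [Nat.ModEq.comm, Nat.modEq_iff_dvd]
  push_cast
  rfl

variable (p : ℕ) [Fact p.Prime]

theorem exists_actsBy (g : GQ) (N : ℕ) : ∃ c : ℕ, ActsBy p g N c := by
  have hp : p.Prime := Fact.out
  obtain ⟨ζ, hζ⟩ := Alg_exists_primitiveRoot (p ^ N) (pow_ne_zero _ hp.ne_zero)
  have h1 : (g ζ) ^ (p ^ N) = 1 := by rw [← map_pow, hζ.pow_eq_one, map_one]
  obtain ⟨i, -, hi⟩ := hζ.eq_pow_of_pow_eq_one h1
  refine ⟨i, fun z hz => ?_⟩
  obtain ⟨j, -, hj⟩ := hζ.eq_pow_of_pow_eq_one hz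
  rw [← hj, map_pow, ← hi, ← pow_mul, ← pow_mul, mul_comm]

variable {p}

theorem ActsBy.pow {g : GQ} {N c : ℕ} (h : ActsBy p g N c) (k : ℕ) :
    ActsBy p (g ^ k) N (c ^ k) := by
  induction k with
  | zero => intro z _; simp
  | succ k ih =>
    intro z hz
    have h1 : (z ^ c) ^ (p ^ N) = 1 := by rw [← pow_mul, mul_comm, pow_mul, hz, one_pow]
    rw [pow_succ, AlgEquiv.mul_apply, h z hz, ih _ h1, ← pow_mul, pow_succ, mul_comm]

theorem ActsBy.mem_Cyc_iff {g : GQ} {N c n : ℕ} (h : ActsBy p g N c) (hn : n ≤ N) :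
    g ∈ Cyc p n ↔ c ≡ 1 [MOD p ^ n] := by
  have hp : p.Prime := Fact.out
  have hup : ∀ z : Qbar, z ^ (p ^ n) = 1 → z ^ (p ^ N) = 1 := by
    intro z hz
    obtain ⟨e, rfl⟩ := Nat.exists_eq_add_of_le hn
    rw [pow_add, pow_mul, hz, one_pow]
  constructor
  · intro hg
    obtain ⟨ζ, hζ⟩ := Alg_exists_primitiveRoot (p ^ n) (pow_ne_zero _ hp.ne_zero)
    have h1 := h ζ (hup ζ hζ.pow_eq_one)
    rw [hg ζ hζ.pow_eq_one] at h1
    have h2 : ζ ^ c = ζ ^ 1 := by rw [pow_one]; exact h1.symm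
    rw [Alg_pow_eq_pow_iff (hζ.ne_zero (pow_ne_zero _ hp.ne_zero)), ← hζ.eq_orderOf] at h2
    exact h2
  · intro hc z hz
    rw [h z (hup z hz)]
    have h2 : z ^ c = z ^ 1 := by
      have hz0 : z ≠ 0 := by
        rintro rfl
        rw [zero_pow (pow_ne_zero _ hp.ne_zero)] at hz
        exact zero_ne_one hz
      rw [Alg_pow_eq_pow_iff hz0]
      exact hc.of_dvd (orderOf_dvd_of_pow_eq_one hz)
    rw [h2, pow_one]

theorem Alg_lte (hp2 : p ≠ 2) {a c : ℕ} (ha : 1 ≤ a) (h1 : c ≡ 1 [MOD p ^ a])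
    (h2 : ¬ c ≡ 1 [MOD p ^ (a + 1)]) :
    c ^ p ≡ 1 [MOD p ^ (a + 1)] ∧ ¬ c ^ p ≡ 1 [MOD p ^ (a + 2)] := by
  have hp : p.Prime := Fact.out
  have hodd : Odd p := hp.odd_of_ne_two hp2
  rw [Alg_modEq_iff] at h1 h2 ⊢
  rw [Alg_modEq_iff]
  have hpZ : Prime (p : ℤ) := Nat.prime_iff_prime_int.mp hp
  have hdvd : (p : ℤ) ∣ (c : ℤ) - 1 := (dvd_pow_self _ (by omega)).trans h1
  have hnd : ¬ (p : ℤ) ∣ (c : ℤ) := by
    intro h
    have : (p : ℤ) ∣ 1 := by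
      have := dvd_sub h hdvd
      simpa using this
    exact hpZ.not_dvd_one this
  have hm : emultiplicity (p : ℤ) ((c : ℤ) - 1) = a := emultiplicity_eq_coe.2 ⟨h1, h2⟩
  have key := emultiplicity_pow_prime_sub_pow_prime hpZ hodd hdvd hnd
  rw [hm, one_pow] at key
  have key' : emultiplicity (p : ℤ) ((c : ℤ) ^ p - 1) = ((a + 1 : ℕ) : ℕ∞) := by
    rw [key]; push_cast; rfl
  have := emultiplicity_eq_coe.1 key'
  push_cast
  exact this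

theorem Cyc_key (hp2 : p ≠ 2) {a : ℕ} (ha : 1 ≤ a) {d : GQ} (h1 : d ∈ Cyc p a)
    (h2 : d ∉ Cyc p (a + 1)) : d ^ p ∈ Cyc p (a + 1) ∧ d ^ p ∉ Cyc p (a + 2) := by
  obtain ⟨c, hc⟩ := exists_actsBy p d (a + 2)
  rw [hc.mem_Cyc_iff (by omega)] at h1 h2
  rw [(hc.pow p).mem_Cyc_iff (by omega), (hc.pow p).mem_Cyc_iff le_rfl]
  exact Alg_lte hp2 ha h1 h2

theorem Cyc_key_iter (hp2 : p ≠ 2) {a : ℕ} (ha : 1 ≤ a) {d : GQ} (h1 : d ∈ Cyc p a)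
    (h2 : d ∉ Cyc p (a + 1)) (k : ℕ) :
    d ^ (p ^ k) ∈ Cyc p (a + k) ∧ d ^ (p ^ k) ∉ Cyc p (a + k + 1) := by
  induction k with
  | zero => simpa using ⟨h1, h2⟩
  | succ k ih =>
    have := Cyc_key hp2 (a := a + k) (by omega) ih.1 ih.2
    rw [← pow_mul, ← pow_succ] at this
    exact this

end Fermat.Agent.PT

end
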