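/-
S55 (Poitou-Tate), block G, leaf FA0 (cyclotomic layer): a Frobenius element at a place over
`q ≠ p` acts on `μ_{p^N}` by `z ↦ z ^ q`.
-/
import Fermat.Agent.PT.Global.Cyc.Defs
import Fermat.Agent.PT.Bridge.Levels
import Fermat.Agent.Lib.Frobenius

set_option autoImplicit false

open ExtCitation
open scoped Pointwise

noncomputable section

namespace Fermat.Agent.PT

variable {p : ℕ} [Fact p.Prime]

/-- two `n`-th roots of unity (`n` prime to the residue characteristic) which are congruent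
modulo the maximal ideal are equal. -/
theorem FrobQ_eq_of_sub_mem_nonunits {L : Type*} [Field L] (A : ValuationSubring L) {n q : ℕ}
    (hn : n ≠ 0) (hnq : n.Coprime q) (hA : A.LiesOverPrime q) {x y : L} (hx : x ^ n = 1)
    (hy : y ^ n = 1) (h : x - y ∈ A.nonunits) : x = y := by
  have hxA : x ∈ A := Levels_mem_of_pow_eq_one A hn hx
  have hyA : y ∈ A := Levels_mem_of_pow_eq_one A hn hy
  by_contra hne
  set a : A := ⟨y, hyA⟩ with ha
  set b : A := ⟨x, hxA⟩ with hb
  have han : a ^ n = 1 := Subtype.ext hy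
  have hbn : b ^ n = 1 := Subtype.ext hx
  have hres : IsLocalRing.residue A b = IsLocalRing.residue A a := by
    rw [← sub_eq_zero, ← map_sub, IsLocalRing.residue_eq_zero_iff,
      ← ValuationSubring.coe_mem_nonunits_iff]
    exact h
  obtain ⟨m, rfl⟩ := Nat.exists_eq_succ_of_ne_zero hn
  set e : A := b * a ^ m with he
  have hen : e ^ (m + 1) = 1 := by
    rw [he, mul_pow, hbn, one_mul, ← pow_mul, mul_comm, pow_mul, han, one_pow]
  have he1 : e ≠ 1 := by
    intro h
    apply hne
    have h2 : b * a ^ (m + 1) = a := by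
      rw [pow_succ, ← mul_assoc, ← he, h, one_mul]
    rw [han, mul_one] at h2
    exact congrArg Subtype.val h2
  have hsum : ∑ i ∈ Finset.range (m + 1), e ^ i = 0 := by
    have := geom_sum_mul e (m + 1)
    rw [hen, sub_self] at this
    exact (mul_eq_zero.1 this).resolve_right (sub_ne_zero.2 he1)
  have hrese : IsLocalRing.residue A e = 1 := by
    rw [he, map_mul, map_pow, hres, ← pow_succ', ← map_pow, han, map_one]
  have hn0 : ((m + 1 : ℕ) : IsLocalRing.ResidueField A) = 0 := by
    have := congrArg (IsLocalRing.residue A) hsum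
    rw [map_sum, map_zero] at this
    simpa [hrese] using this
  have hq0 : ((q : ℕ) : IsLocalRing.ResidueField A) = 0 := by
    have h1 : ((q : A) : L) ∈ A.nonunits := by
      have : ((q : A) : L) = (q : L) := by simp
      rw [this]; exact hA
    rw [ValuationSubring.coe_mem_nonunits_iff, ← IsLocalRing.residue_eq_zero_iff, map_natCast] at h1
    exact h1
  have h1 : ((1 : ℕ) : IsLocalRing.ResidueField A) = 0 := by
    have hb := Nat.gcd_eq_gcd_ab (m + 1) q
    rw [Nat.Coprime] at hnq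
    rw [hnq] at hb
    have := congrArg (Int.cast : ℤ → IsLocalRing.ResidueField A) hb
    push_cast at this
    push_cast at hn0
    rw [hn0, hq0] at this
    simp at this
  simp at h1

/-- a Frobenius element is congruent to `x ↦ x ^ q` on the valuation ring. -/
theorem FrobQ_sub_pow_mem_nonunits {K L : Type*} [Field K] [Field L] [Algebra K L]
    (A : ValuationSubring L) {σ : L ≃ₐ[K] L} {q : ℕ} (hσ : A.IsFrobeniusAt σ q) {x : L}
    (hx : x ∈ A) : σ x - x ^ q ∈ A.nonunits := by
  have h2 := hσ.smul_residue_eq (IsLocalRing.residue A ⟨x, hx⟩)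
  rw [← IsLocalRing.ResidueField.residue_smul, ← map_pow] at h2
  have h3 : ((⟨σ, hσ.mem_decompositionSubgroup⟩ : A.decompositionSubgroup K) • (⟨x, hx⟩ : A))
      - (⟨x, hx⟩ : A) ^ q ∈ IsLocalRing.maximalIdeal A := by
    rw [← IsLocalRing.residue_eq_zero_iff, map_sub, h2, sub_self]
  rw [← ValuationSubring.coe_mem_nonunits_iff] at h3
  exact h3

theorem exists_dec_actsBy_of_ne (𝒜 : Place) {q : ℕ} (hq : q.Prime) (hqp : q ≠ p)
    (h𝒜 : 𝒜.LiesOverPrime q) : ∃ d ∈ Dec 𝒜, ∀ N, ActsBy p d N q := by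
  have hp : p.Prime := Fact.out
  obtain ⟨σ, hσ⟩ := Fermat.Agent.Lib.Frobenius.exists_isFrobeniusAt 𝒜 hq h𝒜
  refine ⟨σ, hσ.mem_decompositionSubgroup, fun N z hz => ?_⟩
  have hn : p ^ N ≠ 0 := pow_ne_zero _ hp.ne_zero
  have hnq : (p ^ N).Coprime q :=
    Nat.Coprime.pow_left N ((Nat.coprime_primes hp hq).2 (Ne.symm hqp))
  have hzA : z ∈ 𝒜 := Levels_mem_of_pow_eq_one 𝒜 hn hz
  refine FrobQ_eq_of_sub_mem_nonunits 𝒜 hn hnq h𝒜 ?_ ?_ (FrobQ_sub_pow_mem_nonunits 𝒜 hσ hzA)
  · rw [← map_pow, hz, map_one]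
  · rw [← pow_mul, mul_comm, pow_mul, hz, one_pow]

end Fermat.Agent.PT

end
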