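/-
S55 (Poitou-Tate), block G, leaf FA0 (cyclotomic layer): the index of `U ⊓ Cyc (m+1)` in `U ⊓ Cyc m`.
-/
import Fermat.Agent.PT.Global.Cyc.Defs

set_option autoImplicit false

open ExtCitation
open scoped Pointwise

noncomputable section

namespace Fermat.Agent.PT

variable {p : ℕ} [Fact p.Prime]

theorem Index_exists_primitiveRoot (p : ℕ) [Fact p.Prime] (n : ℕ) :
    ∃ ζ : Qbar, IsPrimitiveRoot ζ (p ^ n) := by
  have : NeZero p := ⟨(Fact.out : p.Prime).ne_zero⟩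
  exact HasEnoughRootsOfUnity.exists_primitiveRoot Qbar (p ^ n)

omit [Fact p.Prime] in
/-- `(g ζ / ζ) ^ p = 1` for `g ∈ Cyc p m`, `ζ ^ (p ^ (m+1)) = 1`. -/
theorem Index_pow_eq_one {m : ℕ} {ζ : Qbar} (hζ0 : ζ ≠ 0) (hζ : ζ ^ (p ^ (m + 1)) = 1) {g : GQ}
    (hg : g ∈ Cyc p m) : (g ζ / ζ) ^ p = 1 := by
  have h1 : (ζ ^ p) ^ (p ^ m) = 1 := by rw [← pow_mul, ← pow_succ', hζ]
  have h2 := hg _ h1
  rw [div_pow, ← map_pow, h2, div_self (pow_ne_zero _ hζ0)]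

omit [Fact p.Prime] in
theorem Index_fix {m : ℕ} (hm : 1 ≤ m) {w : Qbar} (hw : w ^ p = 1) {g : GQ}
    (hg : g ∈ Cyc p m) : g w = w := by
  apply hg
  obtain ⟨k, rfl⟩ := Nat.exists_eq_add_of_le hm
  rw [add_comm, pow_succ', pow_mul, hw, one_pow]

/-- the Kummer-type character `g ↦ g ζ / ζ` on `U ⊓ Cyc p m`. -/
def IndexHom (U : Subgroup GQ) {m : ℕ} (hm : 1 ≤ m) {ζ : Qbar} (hζ0 : ζ ≠ 0)
    (hζ : ζ ^ (p ^ (m + 1)) = 1) : ↥(U ⊓ Cyc p m) →* Qbarˣ :=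
  MonoidHom.mk' (fun g => Units.mk0 ((g : GQ) ζ / ζ)
    (div_ne_zero (by simpa using hζ0) hζ0)) (by
    intro g h
    apply Units.ext
    show ((g : GQ) * (h : GQ)) ζ / ζ = ((g : GQ) ζ / ζ) * ((h : GQ) ζ / ζ)
    have h1 : (h : GQ) ζ = ζ * ((h : GQ) ζ / ζ) := by field_simp
    have h2 := Index_fix (p := p) hm (Index_pow_eq_one hζ0 hζ h.2.2) g.2.2
    rw [AlgEquiv.mul_apply]
    conv_lhs => rw [h1, map_mul, h2]
    field_simp)

theorem IndexHom_apply (U : Subgroup GQ) {m : ℕ} (hm : 1 ≤ m) {ζ : Qbar} (hζ0 : ζ ≠ 0)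
    (hζ : ζ ^ (p ^ (m + 1)) = 1) (g : ↥(U ⊓ Cyc p m)) :
    ((IndexHom U hm hζ0 hζ g : Qbarˣ) : Qbar) = (g : GQ) ζ / ζ := rfl

theorem relIndex_Cyc (U : Subgroup GQ) {m : ℕ} (hm : 1 ≤ m) {d : GQ} (hdU : d ∈ U)
    (hd : d ∈ Cyc p m) (hd' : d ∉ Cyc p (m + 1)) :
    (U ⊓ Cyc p (m + 1)).relIndex (U ⊓ Cyc p m) = p := by
  have hp : p.Prime := Fact.out
  have : NeZero p := ⟨hp.ne_zero⟩
  obtain ⟨ζ, hζ⟩ := Index_exists_primitiveRoot p (m + 1)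
  have hζ0 : ζ ≠ 0 := hζ.ne_zero (pow_ne_zero _ hp.ne_zero)
  have hζ1 : ζ ^ (p ^ (m + 1)) = 1 := hζ.pow_eq_one
  let φ := IndexHom U hm hζ0 hζ1
  have hker : φ.ker = (U ⊓ Cyc p (m + 1)).subgroupOf (U ⊓ Cyc p m) := by
    ext g
    rw [MonoidHom.mem_ker, Subgroup.mem_subgroupOf, Subgroup.mem_inf]
    constructor
    · intro h
      have h1 : (g : GQ) ζ / ζ = 1 := by
        rw [← IndexHom_apply U hm hζ0 hζ1 g]
        exact congrArg Units.val h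
      have h2 : (g : GQ) ζ = ζ := by
        rw [div_eq_one_iff_eq hζ0] at h1
        exact h1
      refine ⟨g.2.1, fun z hz => ?_⟩
      obtain ⟨i, -, rfl⟩ := hζ.eq_pow_of_pow_eq_one hz
      rw [map_pow, h2]
    · rintro ⟨-, h⟩
      apply Units.ext
      show (g : GQ) ζ / ζ = 1
      rw [h ζ hζ1, div_self hζ0]
  have hrange : φ.range ≤ rootsOfUnity p Qbar := by
    rintro _ ⟨g, rfl⟩
    rw [mem_rootsOfUnity]
    apply Units.ext
    rw [Units.val_pow_eq_pow_val, Units.val_one]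
    exact Index_pow_eq_one hζ0 hζ1 g.2.2
  have hcard : Nat.card (rootsOfUnity p Qbar) = p :=
    HasEnoughRootsOfUnity.natCard_rootsOfUnity Qbar p
  have hdvd : Nat.card φ.range ∣ p := by
    have := Subgroup.card_dvd_of_le hrange
    rwa [hcard] at this
  rw [Subgroup.relIndex, ← hker, Subgroup.index_ker]
  rcases (Nat.dvd_prime hp).mp hdvd with h1 | h1
  · exfalso
    rw [← Subgroup.index_ker, Subgroup.index_eq_one] at h1
    have h2 : (⟨d, hdU, hd⟩ : ↥(U ⊓ Cyc p m)) ∈ φ.ker := by rw [h1]; exact Subgroup.mem_top _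
    rw [hker, Subgroup.mem_subgroupOf] at h2
    exact hd' h2.2
  · exact h1

end Fermat.Agent.PT

end
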