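/-
S55 (Poitou-Tate), block G, leaf FA0 (cyclotomic layer): `Cyc p n` is an `S`-level.
-/
import Fermat.Agent.PT.Global.Cyc.Defs
import Fermat.Agent.PT.Bridge.Levels

set_option autoImplicit false

open ExtCitation
open scoped Pointwise

noncomputable section

namespace Fermat.Agent.PT

variable {p : ℕ} [Fact p.Prime]

theorem G1_le_Cyc_one : G1 p ≤ Cyc p 1 := by
  intro g hg z hz
  have hp : p.Prime := Fact.out
  have : NeZero p := ⟨hp.ne_zero⟩
  have : Fact (1 < p) := ⟨hp.one_lt⟩
  rw [pow_one] at hz
  have hg1 : cycloChar p g = 1 := hg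
  have hz0 : z ≠ 0 := by
    rintro rfl
    rw [zero_pow hp.ne_zero] at hz
    exact zero_ne_one hz
  have ht : Units.mk0 z hz0 ∈ rootsOfUnity p Qbar := by
    rw [mem_rootsOfUnity]
    apply Units.ext
    simpa using hz
  have h1 := modularCyclotomicCharacter.spec (L := Qbar) (card_rootsOfUnity_eq_self p)
    (g : Qbar ≃+* Qbar) ht
  have h2 : (modularCyclotomicCharacter Qbar (card_rootsOfUnity_eq_self p)
      (g : Qbar ≃+* Qbar)) = cycloChar p g := rfl
  rw [h2, hg1, Units.val_one, ZMod.val_one, pow_one] at h1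
  exact h1

theorem Cyc_mem_LS (S : Finset Nat.Primes) (hpS : pPrime p ∈ S) (n : ℕ) : Cyc p n ∈ LS S := by
  have hp : p.Prime := Fact.out
  have hn0 : p ^ n ≠ 0 := pow_ne_zero _ hp.ne_zero
  have : NeZero (p ^ n) := ⟨hn0⟩
  obtain ⟨ζ, hζ⟩ := HasEnoughRootsOfUnity.exists_primitiveRoot Qbar (p ^ n)
  refine ⟨inferInstance, IntermediateField.adjoin ℚ {ζ}, ⟨?_, fun q hq A hA => ?_⟩, ?_⟩
  · have hgal : IsGalois ℚ (AlgebraicClosure ℚ) := Levels_isGalois_Qbar inferInstance
    exact IntermediateField.adjoin.finiteDimensional (hgal.to_normal.isIntegral ζ)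
  · rw [← IntermediateField.le_iff_le, IntermediateField.adjoin_le_iff]
    rintro x rfl
    rw [SetLike.mem_coe, IntermediateField.mem_fixedField_iff]
    intro g hg
    have hne : p ≠ (q : ℕ) := by
      intro h
      apply hq
      have : q = pPrime p := Subtype.ext h.symm
      rwa [this]
    exact Levels_inertia_fix_root A hn0
      (Nat.Coprime.pow_left n ((Nat.coprime_primes hp q.2).2 hne)) hA hg hζ.pow_eq_one
  · ext g
    constructor
    · intro hg
      have h1 : IntermediateField.adjoin ℚ {ζ} ≤
          IntermediateField.fixedField (Subgroup.zpowers g) := by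
        rw [IntermediateField.adjoin_le_iff]
        rintro x rfl
        rw [SetLike.mem_coe, IntermediateField.mem_fixedField_iff]
        rintro h ⟨k, rfl⟩
        have hk : g ^ k ∈ Cyc p n := Subgroup.zpow_mem _ hg k
        exact hk x hζ.pow_eq_one
      rw [IntermediateField.mem_fixingSubgroup_iff]
      intro x hx
      have := h1 hx
      rw [IntermediateField.mem_fixedField_iff] at this
      exact this g (Subgroup.mem_zpowers g)
    · intro hg z hz
      rw [IntermediateField.mem_fixingSubgroup_iff] at hg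
      obtain ⟨i, -, hi⟩ := hζ.eq_pow_of_pow_eq_one hz
      rw [← hi, map_pow, hg ζ (IntermediateField.mem_adjoin_simple_self ℚ ζ)]

end Fermat.Agent.PT

end
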