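/-
S55 (Poitou-Tate), block G, leaf FA0: the decomposition group at a place over `p` surjects onto
`Gal(ℚ(ζ_{p^N})/ℚ)`; here: it contains an element acting by `z ↦ z ^ (1 + p)` on `μ_{p^N}`.
-/
import Fermat.Agent.PT.Global.Cyc.Defs
import Fermat.Agent.CFT.Lift
import Fermat.Agent.CFT.CycloAut

set_option autoImplicit false

open ExtCitation
open scoped Pointwise

noncomputable section

namespace Fermat.Agent.PT

open NumberField

variable {p : ℕ} [Fact p.Prime]

/-- A prime ideal of a ring of integers containing `p` lies over `(p)`. -/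
theorem ramP_liesOver {K : Type*} [Field K] [NumberField K] (P : Ideal (𝓞 K)) [P.IsPrime]
    (hP : (p : 𝓞 K) ∈ P) : P.LiesOver (Ideal.span {(p : ℤ)}) := by
  rw [Ideal.liesOver_iff]
  refine Ideal.IsMaximal.eq_of_le (Int.ideal_span_isMaximal_of_prime p) Ideal.IsPrime.ne_top' ?_
  rw [Ideal.span_singleton_le_iff_mem, Ideal.mem_comap, algebraMap_int_eq, map_natCast]
  exact hP

/-- In `ℚ(ζ_{p^(k+1)})` there is only one prime over `p`. -/
theorem ramP_unique {K : Type*} [Field K] [NumberField K] (k : ℕ)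
    [IsCyclotomicExtension {p ^ (k + 1)} ℚ K] (P P' : Ideal (𝓞 K)) [P.IsPrime] [P'.IsPrime]
    (hP : (p : 𝓞 K) ∈ P) (hP' : (p : 𝓞 K) ∈ P') : P = P' := by
  have hζ := IsCyclotomicExtension.zeta_spec (p ^ (k + 1)) ℚ K
  have h1 := ramP_liesOver P hP
  have h2 := ramP_liesOver P' hP'
  rw [IsCyclotomicExtension.Rat.eq_span_zeta_sub_one_of_liesOver p k K hζ P,
    IsCyclotomicExtension.Rat.eq_span_zeta_sub_one_of_liesOver p k K hζ P']

theorem exists_dec_actsBy_p (𝒜 : Place) (h𝒜 : 𝒜.LiesOverPrime p) (N : ℕ) :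
    ∃ d ∈ Dec 𝒜, ActsBy p d N (1 + p) := by
  have hp : p.Prime := Fact.out
  cases N with
  | zero =>
    refine ⟨1, one_mem _, fun z hz => ?_⟩
    simp only [pow_zero, pow_one] at hz
    simp [hz]
  | succ k =>
    have : NeZero (p ^ (k + 1)) := ⟨pow_ne_zero _ hp.ne_zero⟩
    obtain ⟨ζ, hζ⟩ := HasEnoughRootsOfUnity.exists_primitiveRoot Qbar (p ^ (k + 1))
    have : IsCyclotomicExtension {p ^ (k + 1)} ℚ (IntermediateField.adjoin ℚ {ζ}) :=
      hζ.intermediateField_adjoin_isCyclotomicExtension ℚ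
    have : NumberField (IntermediateField.adjoin ℚ {ζ}) :=
      IsCyclotomicExtension.numberField {p ^ (k + 1)} ℚ _
    have : IsGalois ℚ (IntermediateField.adjoin ℚ {ζ}) :=
      IsCyclotomicExtension.isGalois {p ^ (k + 1)} ℚ _
    set Ω := IntermediateField.adjoin ℚ {ζ} with hΩ
    let ζ' : Ω := ⟨ζ, IntermediateField.mem_adjoin_simple_self ℚ ζ⟩
    have hζ' : IsPrimitiveRoot ζ' (p ^ (k + 1)) :=
      IsPrimitiveRoot.of_map_of_injective (f := algebraMap Ω Qbar) hζ (algebraMap Ω Qbar).injective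
    have hcop : (1 + p).Coprime (p ^ (k + 1)) := by
      apply Nat.Coprime.pow_right
      simp
    obtain ⟨s, hs⟩ := CFT.exists_aut_pow (pow_pos hp.pos _) hζ' hcop
    let P : Ideal (𝓞 Ω) := (Lib.Frobenius.centre 𝒜).comap (CFT.Lift.toInt Qbar Ω)
    have hPprime : P.IsPrime := Ideal.comap_isPrime _ _
    have hAP : CFT.Lift.Above 𝒜 P := fun x => by
      rw [Ideal.mem_comap, Lib.Frobenius.mem_centre]
      rfl
    have hpP : (p : 𝓞 Ω) ∈ P := by
      rw [hAP]
      have : (p : Qbar) ∈ 𝒜.nonunits := h𝒜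
      simpa using this
    have hsP : s • P = P := by
      have hprime' : (s • P).IsPrime := inferInstance
      refine ramP_unique k (s • P) P ?_ hpP
      have h1 := Ideal.smul_mem_pointwise_smul s _ P hpP
      have h2 : s • (p : 𝓞 Ω) = (p : 𝓞 Ω) :=
        map_natCast (MulSemiringAction.toRingHom (Ω ≃ₐ[ℚ] Ω) (𝓞 Ω) s) p
      rwa [h2] at h1
    obtain ⟨g, hg, hgs⟩ := CFT.Lift.lift_decomposition 𝒜 hp h𝒜 P hAP s hsP
    refine ⟨g, hg, fun z hz => ?_⟩
    have hgζ : g ζ = ζ ^ (1 + p) := by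
      have h1 := CFT.Lift.restrict_apply (Ω := Ω) g ζ'
      rw [hgs, hs, map_pow] at h1
      exact h1.symm
    obtain ⟨i, -, rfl⟩ := hζ.eq_pow_of_pow_eq_one hz
    rw [map_pow, hgζ, ← pow_mul, ← pow_mul, mul_comm]

end Fermat.Agent.PT

end
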